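import Mathlib
import Fermat.Prelude.Def_EllipticCurve_FrobeniusTrace
import Fermat.Prelude.Def_FLTPrelim_Ramification
import Fermat.Agent.H4.Inertia

/-!
# Roots of unity modulo a place: Frobenius lifts and inertia

* `eq_of_pow_eq_one_of_valuation_sub_lt_one`: `n`-th roots of unity are distinct modulo the
  maximal ideal of a valuation subring in which `n` is a unit;
* `frobenius_root_of_unity`: a Frobenius lift at a place over `ℓ` raises the roots of unity of
  order prime to `ℓ` to the `ℓ`-th power;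
* `inertia_root_of_unity`: inertia at a place over `q` fixes the roots of unity of order prime
  to `q`.
-/

set_option autoImplicit false

namespace Fermat.Agent.H81.Cyclo

section general

variable {L : Type*} [Field L]

theorem valuation_natCast_le_one (A : ValuationSubring L) (n : ℕ) :
    A.valuation (n : L) ≤ 1 :=
  (A.valuation_le_one_iff _).mpr (natCast_mem A n)

/-- A natural number prime to `ℓ` is a unit at every place over `ℓ`. -/
theorem valuation_natCast_eq_one (A : ValuationSubring L) {ℓ : ℕ} (hℓ : ℓ.Prime)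
    (hA : A.LiesOverPrime ℓ) {n : ℕ} (hn : ¬ ℓ ∣ n) : A.valuation (n : L) = 1 := by
  have hvp : A.valuation (ℓ : L) < 1 := A.mem_nonunits_iff.mp hA
  refine le_antisymm (valuation_natCast_le_one A n) ?_
  by_contra hlt
  push Not at hlt
  have hcop : IsCoprime (ℓ : ℤ) (n : ℤ) := by
    rw [Int.isCoprime_iff_gcd_eq_one, Int.gcd_natCast_natCast]
    exact (Nat.Prime.coprime_iff_not_dvd hℓ).mpr hn
  obtain ⟨s, t, hst⟩ := hcop
  have h1 : ((s * ℓ + t * n : ℤ) : L) = 1 := by rw [hst]; simp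
  have hs : A.valuation ((s : ℤ) : L) ≤ 1 := (A.valuation_le_one_iff _).mpr (intCast_mem A s)
  have ht : A.valuation ((t : ℤ) : L) ≤ 1 := (A.valuation_le_one_iff _).mpr (intCast_mem A t)
  have h2 : A.valuation ((s * ℓ + t * n : ℤ) : L) < 1 := by
    push_cast
    refine A.valuation.map_add_lt ?_ ?_
    · rw [map_mul]
      exact mul_lt_one_of_nonneg_of_lt_one_right hs zero_le hvp
    · rw [map_mul]
      exact mul_lt_one_of_nonneg_of_lt_one_right ht zero_le hlt
  rw [h1, map_one] at h2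
  exact lt_irrefl _ h2

theorem valuation_eq_one_of_pow_eq_one (A : ValuationSubring L) {n : ℕ} (hn : n ≠ 0) {ξ : L}
    (hξ : ξ ^ n = 1) : A.valuation ξ = 1 := by
  have h : A.valuation ξ ^ n = 1 := by rw [← map_pow, hξ, map_one]
  exact (pow_eq_one_iff.mp h).resolve_right hn

/-- `n`-th roots of unity are distinct modulo the maximal ideal when `n` is a unit. -/
theorem eq_of_pow_eq_one_of_valuation_sub_lt_one (A : ValuationSubring L) {n : ℕ}
    (hn : A.valuation (n : L) = 1) {ξ ξ' : L} (hξ : ξ ^ n = 1) (hξ' : ξ' ^ n = 1)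
    (h : A.valuation (ξ - ξ') < 1) : ξ = ξ' := by
  have hn0 : n ≠ 0 := by
    rintro rfl
    rw [Nat.cast_zero, map_zero] at hn
    exact zero_ne_one hn
  have hξ0 : ξ ≠ 0 := by
    rintro rfl
    rw [zero_pow hn0] at hξ
    exact zero_ne_one hξ
  have hvξ : A.valuation ξ = 1 := valuation_eq_one_of_pow_eq_one A hn0 hξ
  set u : L := ξ' * ξ⁻¹ with hu
  have hun : u ^ n = 1 := by rw [hu, mul_pow, inv_pow, hξ, hξ', inv_one, mul_one]
  have hvu : A.valuation u = 1 := valuation_eq_one_of_pow_eq_one A hn0 hun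
  have hvu1 : A.valuation (u - 1) < 1 := by
    have e : u - 1 = (ξ' - ξ) * ξ⁻¹ := by
      rw [hu, sub_mul, mul_inv_cancel₀ hξ0]
    rw [e, map_mul, map_inv₀, hvξ, inv_one, mul_one, ← neg_sub, Valuation.map_neg]
    exact h
  by_contra hne
  have hu1 : u ≠ 1 := by
    intro h1
    apply hne
    have : ξ' = u * ξ := by rw [hu, mul_assoc, inv_mul_cancel₀ hξ0, mul_one]
    rw [this, h1, one_mul]
  have hgeom : ∑ i ∈ Finset.range n, u ^ i = 0 := by
    have h1 := geom_sum_mul u n
    rw [hun, sub_self] at h1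
    exact (mul_eq_zero.mp h1).resolve_right (sub_ne_zero.mpr hu1)
  have hterm : ∀ i ∈ Finset.range n, A.valuation (u ^ i - 1) < 1 := by
    intro i _
    rw [← geom_sum_mul u i, map_mul]
    have hs : A.valuation (∑ j ∈ Finset.range i, u ^ j) ≤ 1 := by
      refine A.valuation.map_sum_le fun j _ => ?_
      rw [map_pow, hvu, one_pow]
    exact mul_lt_one_of_nonneg_of_lt_one_right hs zero_le hvu1
  have hsum : A.valuation (∑ i ∈ Finset.range n, (u ^ i - 1)) < 1 :=
    A.valuation.map_sum_lt one_ne_zero hterm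
  rw [Finset.sum_sub_distrib, hgeom, Finset.sum_const, Finset.card_range, nsmul_eq_mul, mul_one,
    zero_sub, Valuation.map_neg, hn] at hsum
  exact lt_irrefl _ hsum

end general

section frobenius

variable {K L : Type*} [Field K] [Field L] [Algebra K L]

/-- The defining congruence of a Frobenius lift, on elements of the valuation ring. -/
theorem IsFrobeniusAt.valuation_sub_pow_lt_one {A : ValuationSubring L} {σ : L ≃ₐ[K] L} {q : ℕ}
    (hσ : A.IsFrobeniusAt σ q) {x : L} (hx : x ∈ A) : A.valuation (σ x - x ^ q) < 1 := by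
  obtain ⟨hdec, hfrob⟩ := hσ
  set g : A.decompositionSubgroup K := ⟨σ, hdec⟩ with hg
  have h1 := hfrob (IsLocalRing.residue A ⟨x, hx⟩)
  have h2 : IsLocalRing.residue A (g • (⟨x, hx⟩ : A)) = IsLocalRing.residue A ⟨x, hx⟩ ^ q := by
    rw [← h1]; rfl
  rw [← map_pow, ← sub_eq_zero, ← map_sub, IsLocalRing.residue_eq_zero_iff,
    ValuationSubring.valuation_lt_one_iff] at h2
  exact h2

/-- A Frobenius lift at a place over `ℓ` raises roots of unity of order prime to `ℓ` to the
`ℓ`-th power. -/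
theorem frobenius_root_of_unity {A : ValuationSubring L} {ℓ : ℕ} (hℓ : ℓ.Prime)
    (hA : A.LiesOverPrime ℓ) {σ : L ≃ₐ[K] L} (hσ : A.IsFrobeniusAt σ ℓ) {n : ℕ} (hn : ¬ ℓ ∣ n)
    {ζ : L} (hζ : ζ ^ n = 1) : σ ζ = ζ ^ ℓ := by
  have hn0 : n ≠ 0 := fun h => hn (h ▸ dvd_zero ℓ)
  have hv : A.valuation ζ = 1 := valuation_eq_one_of_pow_eq_one A hn0 hζ
  have hmem : ζ ∈ A := (A.valuation_le_one_iff ζ).mp hv.le
  refine eq_of_pow_eq_one_of_valuation_sub_lt_one A (valuation_natCast_eq_one A hℓ hA hn) ?_ ?_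
    (IsFrobeniusAt.valuation_sub_pow_lt_one hσ hmem)
  · rw [← map_pow, hζ, map_one]
  · rw [← pow_mul, mul_comm, pow_mul, hζ, one_pow]

/-- Inertia at a place over `q` fixes the roots of unity of order prime to `q`. -/
theorem inertia_root_of_unity {A : ValuationSubring L} {q : ℕ} (hq : q.Prime)
    (hA : A.LiesOverPrime q) {σ : L ≃ₐ[K] L} (hσ : σ ∈ A.inertiaSubgroupIn K) {n : ℕ}
    (hn : ¬ q ∣ n) {ζ : L} (hζ : ζ ^ n = 1) : σ ζ = ζ := by
  have hn0 : n ≠ 0 := fun h => hn (h ▸ dvd_zero q)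
  have hv : A.valuation ζ = 1 := valuation_eq_one_of_pow_eq_one A hn0 hζ
  refine eq_of_pow_eq_one_of_valuation_sub_lt_one A (valuation_natCast_eq_one A hq hA hn) ?_ hζ
    (Fermat.Agent.H4.inertia_val_sub_lt_one A hσ hv.le)
  rw [← map_pow, hζ, map_one]

end frobenius

end Fermat.Agent.H81.Cyclo
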