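import Mathlib
import Fermat.Agent.H81.Cyclo.Roots

/-!
# The `p`-adic cyclotomic character of `G_ℚ`, with values in a complete local ring

* `padicCyclo p : G_ℚ →* ℤ_[p]ˣ` (Mathlib's `cyclotomicCharacter` on `ℚ̄`);
* `padicToAdic p 𝒪 hp : ℤ_[p] →+* 𝒪` for a ring `𝒪` complete for an ideal `I` containing `p`;
* `adicCyclo p I hp : G_ℚ →* 𝒪ˣ` with
  * `adicCyclo_frobenius`: value `ℓ` at every Frobenius lift at a place over `ℓ ≠ p`,
  * `adicCyclo_inertia`: trivial on inertia at places over `q ≠ p`,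
  * `adicCyclo_continuous`: congruent to `1` modulo `I ^ n` on `Gal(ℚ̄/ℚ(μ_{p^n}))`.
-/

set_option autoImplicit false

namespace Fermat.Agent.H81.Cyclo

/-- The absolute Galois group of `ℚ`. -/
abbrev GQ : Type := AlgebraicClosure ℚ ≃ₐ[ℚ] AlgebraicClosure ℚ

section padic

variable (p : ℕ) [Fact p.Prime]

/-- The `p`-adic cyclotomic character of `G_ℚ`. -/
noncomputable def padicCyclo : GQ →* ℤ_[p]ˣ :=
  (cyclotomicCharacter (AlgebraicClosure ℚ) p).comp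
    (MulSemiringAction.toRingAut GQ (AlgebraicClosure ℚ))

theorem padicCyclo_spec (σ : GQ) {n : ℕ} {t : AlgebraicClosure ℚ} (ht : t ^ p ^ n = 1) :
    σ t = t ^ ((PadicInt.toZModPow n) ((padicCyclo p σ : ℤ_[p]ˣ) : ℤ_[p])).val :=
  cyclotomicCharacter.spec p (MulSemiringAction.toRingAut GQ (AlgebraicClosure ℚ) σ) t ht

/-- The residue of `padicCyclo σ` modulo `p ^ n` is determined by the action on `μ_{p^n}`. -/
theorem toZModPow_padicCyclo_eq (σ : GQ) (n : ℕ) (a : ℕ)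
    (h : ∀ t : AlgebraicClosure ℚ, t ^ p ^ n = 1 → σ t = t ^ a) :
    (PadicInt.toZModPow n) ((padicCyclo p σ : ℤ_[p]ˣ) : ℤ_[p]) = (a : ZMod (p ^ n)) := by
  have hp : p.Prime := Fact.out
  have : NeZero (p ^ n) := ⟨pow_ne_zero n hp.ne_zero⟩
  have h1 := cyclotomicCharacter.toZModPow (L := AlgebraicClosure ℚ) p (n := n)
    (MulSemiringAction.toRingAut GQ (AlgebraicClosure ℚ) σ)
  change (PadicInt.toZModPow n) ((padicCyclo p σ : ℤ_[p]ˣ) : ℤ_[p]) = _ at h1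
  rw [h1]
  symm
  apply modularCyclotomicCharacter.unique
  intro t ht
  have ht' : (t : AlgebraicClosure ℚ) ^ p ^ n = 1 := by
    have := (mem_rootsOfUnity _ _).mp ht
    rw [← Units.val_pow_eq_pow_val, this, Units.val_one]
  have h2 : (MulSemiringAction.toRingAut GQ (AlgebraicClosure ℚ) σ) (t : AlgebraicClosure ℚ)
      = σ (t : AlgebraicClosure ℚ) := rfl
  rw [h2, h (t : AlgebraicClosure ℚ) ht', ZMod.val_natCast]
  conv_lhs => rw [← Nat.div_add_mod a (p ^ n), pow_add, pow_mul, ht', one_pow, one_mul]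

/-- If `σ` acts on all `p`-power roots of unity by `t ↦ t ^ a`, then `padicCyclo σ = a`. -/
theorem padicCyclo_eq_natCast (σ : GQ) (a : ℕ)
    (h : ∀ (n : ℕ) (t : AlgebraicClosure ℚ), t ^ p ^ n = 1 → σ t = t ^ a) :
    ((padicCyclo p σ : ℤ_[p]ˣ) : ℤ_[p]) = (a : ℤ_[p]) := by
  apply PadicInt.ext_of_toZModPow.mp
  intro n
  rw [toZModPow_padicCyclo_eq p σ n a (h n), map_natCast]

/-- Value of the `p`-adic cyclotomic character at a Frobenius lift at `ℓ ≠ p`. -/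
theorem padicCyclo_frobenius {A : ValuationSubring (AlgebraicClosure ℚ)} {ℓ : ℕ} (hℓ : ℓ.Prime)
    (hℓp : ℓ ≠ p) (hA : A.LiesOverPrime ℓ) {σ : GQ} (hσ : A.IsFrobeniusAt σ ℓ) :
    ((padicCyclo p σ : ℤ_[p]ˣ) : ℤ_[p]) = (ℓ : ℤ_[p]) := by
  have hp : p.Prime := Fact.out
  refine padicCyclo_eq_natCast p σ ℓ fun n t ht => ?_
  refine frobenius_root_of_unity hℓ hA hσ ?_ ht
  intro hdvd
  exact hℓp ((Nat.prime_dvd_prime_iff_eq hℓ hp).mp (hℓ.dvd_of_dvd_pow hdvd))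

/-- The `p`-adic cyclotomic character is trivial on inertia at `q ≠ p`. -/
theorem padicCyclo_inertia {A : ValuationSubring (AlgebraicClosure ℚ)} {q : ℕ} (hq : q.Prime)
    (hqp : q ≠ p) (hA : A.LiesOverPrime q) {σ : GQ} (hσ : σ ∈ A.inertiaSubgroupIn ℚ) :
    padicCyclo p σ = 1 := by
  have hp : p.Prime := Fact.out
  apply Units.ext
  rw [Units.val_one]
  have h := padicCyclo_eq_natCast p σ 1 fun n t ht => by
    rw [pow_one]
    refine inertia_root_of_unity hq hA hσ ?_ ht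
    intro hdvd
    exact hqp ((Nat.prime_dvd_prime_iff_eq hq hp).mp (hq.dvd_of_dvd_pow hdvd))
  rw [h, Nat.cast_one]

/-- The cyclotomic field `ℚ(μ_{p^n})` inside `ℚ̄`, as a finite level. -/
theorem exists_level_padicCyclo (n : ℕ) :
    ∃ L : IntermediateField ℚ (AlgebraicClosure ℚ), FiniteDimensional ℚ L ∧
      ∀ σ : GQ, (∀ x ∈ L, σ x = x) →
        (PadicInt.toZModPow n) ((padicCyclo p σ : ℤ_[p]ˣ) : ℤ_[p]) = 1 := by
  have hp : p.Prime := Fact.out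
  have : NeZero (p ^ n) := ⟨pow_ne_zero n hp.ne_zero⟩
  obtain ⟨ζ, hζ⟩ := HasEnoughRootsOfUnity.exists_primitiveRoot (AlgebraicClosure ℚ) (p ^ n)
  have hint : IsIntegral ℚ ζ := (AlgebraicClosure.isAlgebraic ℚ).isIntegral.isIntegral ζ
  refine ⟨IntermediateField.adjoin ℚ {ζ}, IntermediateField.adjoin.finiteDimensional hint, ?_⟩
  intro σ hσ
  have hζfix : σ ζ = ζ := hσ ζ (IntermediateField.mem_adjoin_simple_self ℚ ζ)
  have h := toZModPow_padicCyclo_eq p σ n 1 fun t ht => by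
    obtain ⟨i, -, rfl⟩ := hζ.eq_pow_of_pow_eq_one ht
    rw [map_pow, hζfix, pow_one]
  rw [h, Nat.cast_one]

end padic

section adic

variable (p : ℕ) [Fact p.Prime] {𝒪 : Type*} [CommRing 𝒪] (I : Ideal 𝒪)

/-- The canonical map `ℤ/p^n → 𝒪/I^n` when `p ∈ I`. -/
noncomputable def zmodToQuot (hp : (p : 𝒪) ∈ I) (n : ℕ) : ZMod (p ^ n) →+* 𝒪 ⧸ I ^ n :=
  ZMod.castHom (m := ringChar (𝒪 ⧸ I ^ n)) (ringChar.dvd (by
    rw [Nat.cast_pow, ← map_natCast (Ideal.Quotient.mk (I ^ n)), ← map_pow,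
      Ideal.Quotient.eq_zero_iff_mem]
    exact Ideal.pow_mem_pow hp n)) (𝒪 ⧸ I ^ n)

theorem zmodToQuot_compat (hp : (p : 𝒪) ∈ I) {m n : ℕ} (hle : m ≤ n) :
    (Ideal.Quotient.factorPow I hle).comp
        ((zmodToQuot p I hp n).comp (PadicInt.toZModPow n)) =
      (zmodToQuot p I hp m).comp (PadicInt.toZModPow m) := by
  rw [← PadicInt.zmod_cast_comp_toZModPow m n hle, ← RingHom.comp_assoc, ← RingHom.comp_assoc]
  congr 1
  exact Subsingleton.elim _ _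

variable [IsAdicComplete I 𝒪]

/-- The canonical map `ℤ_[p] → 𝒪` for an `I`-adically complete ring with `p ∈ I`. -/
noncomputable def padicToAdic (hp : (p : 𝒪) ∈ I) : ℤ_[p] →+* 𝒪 :=
  IsAdicComplete.liftRingHom I (fun n => (zmodToQuot p I hp n).comp (PadicInt.toZModPow n))
    (fun hle => zmodToQuot_compat p I hp hle)

theorem mk_padicToAdic (hp : (p : 𝒪) ∈ I) (n : ℕ) (x : ℤ_[p]) :
    Ideal.Quotient.mk (I ^ n) (padicToAdic p I hp x) =
      zmodToQuot p I hp n (PadicInt.toZModPow n x) :=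
  IsAdicComplete.mk_liftRingHom I (fun n => (zmodToQuot p I hp n).comp (PadicInt.toZModPow n))
    (fun hle => zmodToQuot_compat p I hp hle) n x

theorem padicToAdic_sub_one_mem (hp : (p : 𝒪) ∈ I) (n : ℕ) {x : ℤ_[p]}
    (hx : PadicInt.toZModPow n x = 1) : padicToAdic p I hp x - 1 ∈ I ^ n := by
  rw [← Ideal.Quotient.eq_zero_iff_mem, map_sub, mk_padicToAdic, hx, map_one, map_one, sub_self]

/-- The `p`-adic cyclotomic character with values in `𝒪ˣ`. -/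
noncomputable def adicCyclo (hp : (p : 𝒪) ∈ I) : GQ →* 𝒪ˣ :=
  (Units.map (padicToAdic p I hp : ℤ_[p] →* 𝒪)).comp (padicCyclo p)

theorem coe_adicCyclo (hp : (p : 𝒪) ∈ I) (σ : GQ) :
    ((adicCyclo p I hp σ : 𝒪ˣ) : 𝒪) = padicToAdic p I hp ((padicCyclo p σ : ℤ_[p]ˣ) : ℤ_[p]) :=
  rfl

/-- **[F]** value at Frobenius lifts. -/
theorem adicCyclo_frobenius (hp : (p : 𝒪) ∈ I) {A : ValuationSubring (AlgebraicClosure ℚ)}
    {ℓ : ℕ} (hℓ : ℓ.Prime) (hℓp : ℓ ≠ p) (hA : A.LiesOverPrime ℓ) {σ : GQ}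
    (hσ : A.IsFrobeniusAt σ ℓ) : ((adicCyclo p I hp σ : 𝒪ˣ) : 𝒪) = (ℓ : 𝒪) := by
  rw [coe_adicCyclo, padicCyclo_frobenius p hℓ hℓp hA hσ, map_natCast]

/-- **[I]** triviality on inertia away from `p`. -/
theorem adicCyclo_inertia (hp : (p : 𝒪) ∈ I) {A : ValuationSubring (AlgebraicClosure ℚ)}
    {q : ℕ} (hq : q.Prime) (hqp : q ≠ p) (hA : A.LiesOverPrime q) {σ : GQ}
    (hσ : σ ∈ A.inertiaSubgroupIn ℚ) : adicCyclo p I hp σ = 1 := by
  rw [adicCyclo, MonoidHom.comp_apply, padicCyclo_inertia p hq hqp hA hσ, map_one]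

/-- **[C]** adic continuity: trivial modulo `I ^ n` on the stabiliser of a finite level. -/
theorem adicCyclo_continuous (hp : (p : 𝒪) ∈ I) (n : ℕ) :
    ∃ L : IntermediateField ℚ (AlgebraicClosure ℚ), FiniteDimensional ℚ L ∧
      ∀ σ : GQ, (∀ x ∈ L, σ x = x) → ((adicCyclo p I hp σ : 𝒪ˣ) : 𝒪) - 1 ∈ I ^ n := by
  obtain ⟨L, hL, h⟩ := exists_level_padicCyclo p n
  exact ⟨L, hL, fun σ hσ => padicToAdic_sub_one_mem p I hp n (h σ hσ)⟩

end adic

end Fermat.Agent.H81.Cyclo
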