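import Mathlib
import Fermat.Agent.H81.Cyclo.Adic
import Fermat.Prelude.Def_GaloisRep_Adic

/-!
# Cyclotomic characters of `G_ℚ`: the two shapes used by the prelude

* `modCyclo p k : G_ℚ →* kˣ` for a field `k` of characteristic `p`: value `ℓ` at Frobenius lifts
  at `ℓ ≠ p`, trivial on inertia away from `p`, `GaloisFactorsThroughFiniteLevel`;
* `localCyclo p 𝒪 hp : G_ℚ →* 𝒪ˣ` for a complete local ring `𝒪` with `p` in the maximal ideal:
  the same properties, continuity in the shape of `GaloisActionIsAdicContinuous`.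
-/

set_option autoImplicit false
set_option linter.unusedSectionVars false

namespace Fermat.Agent.H81.Cyclo

section modp

variable (p : ℕ) [Fact p.Prime] (k : Type*) [Field k] [CharP k p]

theorem natCast_mem_bot : ((p : ℕ) : k) ∈ (⊥ : Ideal k) := by
  rw [Ideal.mem_bot]
  exact CharP.cast_eq_zero k p

/-- The mod `p` cyclotomic character with values in a field of characteristic `p`. -/
noncomputable def modCyclo : GQ →* kˣ :=
  adicCyclo p (⊥ : Ideal k) (natCast_mem_bot p k)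

/-- **[F]** value at Frobenius lifts. -/
theorem modCyclo_frobenius {A : ValuationSubring (AlgebraicClosure ℚ)}
    {ℓ : ℕ} (hℓ : ℓ.Prime) (hℓp : ℓ ≠ p) (hA : A.LiesOverPrime ℓ) {σ : GQ}
    (hσ : A.IsFrobeniusAt σ ℓ) : ((modCyclo p k σ : kˣ) : k) = (ℓ : k) :=
  adicCyclo_frobenius p ⊥ (natCast_mem_bot p k) hℓ hℓp hA hσ

/-- **[I]** triviality on inertia away from `p`. -/
theorem modCyclo_inertia {A : ValuationSubring (AlgebraicClosure ℚ)}
    {q : ℕ} (hq : q.Prime) (hqp : q ≠ p) (hA : A.LiesOverPrime q) {σ : GQ}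
    (hσ : σ ∈ A.inertiaSubgroupIn ℚ) : modCyclo p k σ = 1 :=
  adicCyclo_inertia p ⊥ (natCast_mem_bot p k) hq hqp hA hσ

/-- The mod `p` cyclotomic character factors through the finite level `ℚ(μ_p)`. -/
theorem modCyclo_finiteLevel {k : Type} [Field k] [CharP k p] :
    GaloisFactorsThroughFiniteLevel (modCyclo p k) := by
  obtain ⟨L, hL, h⟩ := adicCyclo_continuous p (⊥ : Ideal k) (natCast_mem_bot p k) 1
  refine ⟨L, hL, fun σ hσ => ?_⟩
  have h1 := h σ hσ
  rw [pow_one, Ideal.mem_bot, sub_eq_zero] at h1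
  exact Units.ext h1

/-- Action on `p`-th roots of unity. -/
theorem modCyclo_spec (σ : GQ) {t : AlgebraicClosure ℚ} (ht : t ^ p = 1) (a : ℕ)
    (ha : ((modCyclo p k σ : kˣ) : k) = (a : k)) : σ t = t ^ a := by
  have hp : p.Prime := Fact.out
  have ht1 : t ^ p ^ 1 = 1 := by rw [pow_one]; exact ht
  have h1 := padicCyclo_spec p σ ht1
  rw [h1]
  -- compare the two exponents modulo `p`
  set c := (PadicInt.toZModPow 1) ((padicCyclo p σ : ℤ_[p]ˣ) : ℤ_[p]) with hc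
  have h2 : zmodToQuot p (⊥ : Ideal k) (natCast_mem_bot p k) 1 c
      = Ideal.Quotient.mk ((⊥ : Ideal k) ^ 1) (a : k) := by
    rw [← ha, hc, ← mk_padicToAdic]
    rfl
  have h3 : zmodToQuot p (⊥ : Ideal k) (natCast_mem_bot p k) 1 c
      = zmodToQuot p (⊥ : Ideal k) (natCast_mem_bot p k) 1 (a : ZMod (p ^ 1)) := by
    rw [h2, map_natCast, map_natCast]
  have hinj : Function.Injective (zmodToQuot p (⊥ : Ideal k) (natCast_mem_bot p k) 1) := by
    have : Fact (p ^ 1).Prime := ⟨by rw [pow_one]; exact hp⟩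
    have : Nontrivial (k ⧸ (⊥ : Ideal k) ^ 1) := by
      rw [pow_one]
      exact Ideal.Quotient.nontrivial_iff.mpr bot_ne_top
    exact RingHom.injective _
  have h4 : c = (a : ZMod (p ^ 1)) := hinj h3
  have h5 : c.val ≡ a [MOD p ^ 1] := by
    rw [h4, ZMod.val_natCast]
    exact Nat.mod_modEq a (p ^ 1)
  -- `t ^ c.val = t ^ a`
  have h6 : ∀ m : ℕ, t ^ m = t ^ (m % p ^ 1) := by
    intro m
    conv_lhs => rw [← Nat.div_add_mod m (p ^ 1), pow_add, pow_mul, ht1, one_pow, one_mul]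
  rw [h6 c.val, h6 a, h5]

end modp

section localRing

variable (p : ℕ) [Fact p.Prime] (𝒪 : Type) [CommRing 𝒪] [IsLocalRing 𝒪]
  [IsAdicComplete (IsLocalRing.maximalIdeal 𝒪) 𝒪]

/-- The `p`-adic cyclotomic character with values in a complete local ring of residue
characteristic `p`. -/
noncomputable def localCyclo (hp : (p : 𝒪) ∈ IsLocalRing.maximalIdeal 𝒪) : GQ →* 𝒪ˣ :=
  adicCyclo p (IsLocalRing.maximalIdeal 𝒪) hp

/-- **[F]** value at Frobenius lifts. -/
theorem localCyclo_frobenius (hp : (p : 𝒪) ∈ IsLocalRing.maximalIdeal 𝒪)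
    {A : ValuationSubring (AlgebraicClosure ℚ)}
    {ℓ : ℕ} (hℓ : ℓ.Prime) (hℓp : ℓ ≠ p) (hA : A.LiesOverPrime ℓ) {σ : GQ}
    (hσ : A.IsFrobeniusAt σ ℓ) : ((localCyclo p 𝒪 hp σ : 𝒪ˣ) : 𝒪) = (ℓ : 𝒪) :=
  adicCyclo_frobenius p _ hp hℓ hℓp hA hσ

/-- **[I]** triviality on inertia away from `p`. -/
theorem localCyclo_inertia (hp : (p : 𝒪) ∈ IsLocalRing.maximalIdeal 𝒪)
    {A : ValuationSubring (AlgebraicClosure ℚ)}
    {q : ℕ} (hq : q.Prime) (hqp : q ≠ p) (hA : A.LiesOverPrime q) {σ : GQ}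
    (hσ : σ ∈ A.inertiaSubgroupIn ℚ) : localCyclo p 𝒪 hp σ = 1 :=
  adicCyclo_inertia p _ hp hq hqp hA hσ

/-- **[C]** continuity. -/
theorem localCyclo_continuous (hp : (p : 𝒪) ∈ IsLocalRing.maximalIdeal 𝒪) (n : ℕ) :
    ∃ L : IntermediateField ℚ (AlgebraicClosure ℚ), FiniteDimensional ℚ L ∧
      ∀ σ : GQ, (∀ x ∈ L, σ x = x) →
        ((localCyclo p 𝒪 hp σ : 𝒪ˣ) : 𝒪) - 1 ∈ IsLocalRing.maximalIdeal 𝒪 ^ n :=
  adicCyclo_continuous p _ hp n

end localRing

end Fermat.Agent.H81.Cyclo
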