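import Mathlib
import Fermat.Agent.H81.Cyclo.Mod
import Fermat.Prelude.Def_GaloisRep_ComplexConjugation

/-!
# The cyclotomic character at complex conjugation

The prelude's `complexConjugation : G_ℚ` inverts every root of unity, hence every cyclotomic
character of `Fermat.Agent.H81.Cyclo` takes the value `-1` at it.
-/

set_option autoImplicit false
set_option linter.unusedSectionVars false

namespace Fermat.Agent.H81.Cyclo

/-- Complex conjugation inverts roots of unity. -/
theorem complexConjugation_root_of_unity {t : AlgebraicClosure ℚ} {n : ℕ} (hn : n ≠ 0)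
    (ht : t ^ n = 1) : complexConjugation t = t⁻¹ := by
  apply complexEmbedding.toRingHom.injective
  change complexEmbedding (complexConjugation t) = complexEmbedding t⁻¹
  rw [complexEmbedding_complexConjugation, map_inv₀]
  have h1 : (complexEmbedding t) ^ n = 1 := by rw [← map_pow, ht, map_one]
  exact (Complex.inv_eq_conj (Complex.norm_eq_one_of_pow_eq_one h1 hn)).symm

/-- Complex conjugation acts on `n`-th roots of unity by the exponent `n - 1`. -/
theorem complexConjugation_root_of_unity_pow {t : AlgebraicClosure ℚ} {n : ℕ} (hn : n ≠ 0)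
    (ht : t ^ n = 1) : complexConjugation t = t ^ (n - 1) := by
  rw [complexConjugation_root_of_unity hn ht]
  have ht0 : t ≠ 0 := by
    rintro rfl
    rw [zero_pow hn] at ht
    exact zero_ne_one ht
  apply inv_eq_of_mul_eq_one_right
  rw [← pow_succ', Nat.sub_add_cancel (Nat.one_le_iff_ne_zero.mpr hn), ht]

section padic

variable (p : ℕ) [Fact p.Prime]

theorem toZModPow_padicCyclo_complexConjugation (n : ℕ) :
    (PadicInt.toZModPow n) ((padicCyclo p complexConjugation : ℤ_[p]ˣ) : ℤ_[p]) = -1 := by
  have hp : p.Prime := Fact.out
  have hpn : p ^ n ≠ 0 := pow_ne_zero n hp.ne_zero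
  rw [toZModPow_padicCyclo_eq p complexConjugation n (p ^ n - 1)
    (fun t ht => complexConjugation_root_of_unity_pow hpn ht)]
  rw [Nat.cast_sub (Nat.one_le_iff_ne_zero.mpr hpn), Nat.cast_one, ZMod.natCast_self, zero_sub]

/-- The `p`-adic cyclotomic character takes the value `-1` at complex conjugation. -/
theorem padicCyclo_complexConjugation : padicCyclo p complexConjugation = -1 := by
  apply Units.ext
  rw [Units.val_neg, Units.val_one]
  apply PadicInt.ext_of_toZModPow.mp
  intro n
  rw [toZModPow_padicCyclo_complexConjugation, map_neg, map_one]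

end padic

section adic

variable (p : ℕ) [Fact p.Prime] {𝒪 : Type*} [CommRing 𝒪] (I : Ideal 𝒪) [IsAdicComplete I 𝒪]

/-- **[c]** the adic cyclotomic character takes the value `-1` at complex conjugation. -/
theorem adicCyclo_complexConjugation (hp : (p : 𝒪) ∈ I) :
    adicCyclo p I hp complexConjugation = -1 := by
  apply Units.ext
  rw [coe_adicCyclo, padicCyclo_complexConjugation, Units.val_neg, Units.val_one, Units.val_neg,
    Units.val_one, map_neg, map_one]

end adic

section modp

variable (p : ℕ) [Fact p.Prime] (k : Type*) [Field k] [CharP k p]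

/-- **[c]** the mod `p` cyclotomic character takes the value `-1` at complex conjugation. -/
theorem modCyclo_complexConjugation : modCyclo p k complexConjugation = -1 :=
  adicCyclo_complexConjugation p ⊥ (natCast_mem_bot p k)

end modp

section localRing

variable (p : ℕ) [Fact p.Prime] (𝒪 : Type) [CommRing 𝒪] [IsLocalRing 𝒪]
  [IsAdicComplete (IsLocalRing.maximalIdeal 𝒪) 𝒪]

/-- **[c]** the local cyclotomic character takes the value `-1` at complex conjugation. -/
theorem localCyclo_complexConjugation (hp : (p : 𝒪) ∈ IsLocalRing.maximalIdeal 𝒪) :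
    localCyclo p 𝒪 hp complexConjugation = -1 :=
  adicCyclo_complexConjugation p _ hp

end localRing

end Fermat.Agent.H81.Cyclo
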